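/-
S18 / wave 4, leaf C3 of the Program J skeleton (helper74, Core.lean v6): approximate `m`-th roots
of a one-unit `u` which are POLYNOMIALS in `u` with coefficients in `A`.

* `exists_poly_root` : in a commutative ring in which `m` is a unit, for every `N` there is a
  polynomial `b` with `b(1) = 1` and `b ^ m = X + (X - 1) ^ (N + 1) * E`.
* `exists_approxRoot` (L3a, polynomial form): `∃ p : K[X]` with coefficients in `A` such that
  `IsApproxRoot O m u N (aeval u p)`.
* `sub_one_mem_of_pow` (L3b) is already on main as `Fermat.Agent.S18.H22.sub_one_mem_of_pow`.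

Both leaves need `(m : K) ≠ 0` (e.g. `[CharZero K]` and `m ≠ 0`): `(m : K)⁻¹ ∈ A` alone is vacuous
when the characteristic of `K` divides `m`.
-/
import Fermat.Agent.S18.H74.CoreDefs

set_option autoImplicit false

namespace Fermat.Agent.S18.H89

open Polynomial

/-- Polynomial approximate `m`-th roots of `X` around `1`, over a commutative ring in which `m`
is a unit. -/
theorem exists_poly_root {R : Type*} [CommRing R] (m : ℕ) (hm : IsUnit (m : R)) (N : ℕ) :
    ∃ b E : R[X], b.eval 1 = 1 ∧ b ^ m = X + (X - 1) ^ (N + 1) * E := by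
  induction N with
  | zero => exact ⟨1, -1, by simp, by ring⟩
  | succ N ih =>
    obtain ⟨b, E, hb, hE⟩ := ih
    obtain ⟨v, hv⟩ := hm.exists_right_inv
    obtain ⟨k, hk⟩ := Polynomial.powAddExpansion b (C (-(E.eval 1) * v) * (X - 1) ^ (N + 1)) m
    have hdvd : (X - C (1 : R)) ∣ E + (m : R[X]) * b ^ (m - 1) * C (-(E.eval 1) * v) := by
      rw [Polynomial.dvd_iff_isRoot, Polynomial.IsRoot.def]
      simp only [eval_add, eval_mul, eval_natCast, eval_pow, hb, one_pow, mul_one, eval_C]
      linear_combination (-(E.eval 1)) * hv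
    obtain ⟨q, hq⟩ := hdvd
    refine ⟨b + C (-(E.eval 1) * v) * (X - 1) ^ (N + 1),
      q + k * C (-(E.eval 1) * v) ^ 2 * (X - 1) ^ N, ?_, ?_⟩
    · simp [hb]
    · rw [hk, hE]
      have hC : (C (1 : R) : R[X]) = 1 := by simp
      rw [hC] at hq
      linear_combination (X - 1) ^ (N + 1) * hq

section ValuationSubring

variable {K : Type*} [Field K] {A : ValuationSubring K} {F : Type*} [Field F] [Algebra K F]
  {O : ValuationSubring F}

/-- A polynomial with coefficients in `A`, evaluated at an element of `O`, lies in `O`. -/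
theorem aeval_mem_of_coeff_mem (hmem : ∀ a : K, algebraMap K F a ∈ O ↔ a ∈ A) {u : F}
    (hu : u ∈ O) (p : K[X]) (hp : ∀ i, p.coeff i ∈ A) : aeval u p ∈ O := by
  rw [Polynomial.aeval_eq_sum_range]
  refine sum_mem fun i _ => ?_
  rw [Algebra.smul_def]
  exact mul_mem ((hmem _).mpr (hp i)) (pow_mem hu i)

/-- **(L3a) Approximate roots, polynomial form**, with `(m : K) ≠ 0` instead of characteristic
zero. -/
theorem exists_approxRoot' (hmem : ∀ a : K, algebraMap K F a ∈ O ↔ a ∈ A)
    (m : ℕ) (hmK : (m : K) ≠ 0) (hm : ((m : K))⁻¹ ∈ A) (u : F) (hu : u - 1 ∈ O.nonunits) (N : ℕ) :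
    ∃ p : Polynomial K, (∀ i, p.coeff i ∈ A) ∧
      H74.IsApproxRoot O m u N (Polynomial.aeval u p) := by
  have hmA : IsUnit ((m : ℕ) : A) := by
    refine IsUnit.of_mul_eq_one (⟨((m : K))⁻¹, hm⟩ : A) ?_
    apply Subtype.ext
    simp [hmK]
  obtain ⟨b, E, hb, hE⟩ := exists_poly_root (R := A) m hmA N
  have hdvd : (X - C (1 : A)) ∣ b - 1 := by
    rw [Polynomial.dvd_iff_isRoot, Polynomial.IsRoot.def]
    simp [hb]
  obtain ⟨q, hq⟩ := hdvd
  have huO : u ∈ O := by
    have h1 : u = (u - 1) + 1 := by ring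
    rw [h1]
    exact add_mem (ValuationSubring.nonunits_subset hu) (one_mem O)
  have hcoeff : ∀ r : Polynomial A, ∀ i, (r.map A.subtype).coeff i ∈ A := fun r i => by
    rw [coeff_map]
    exact (r.coeff i).2
  refine ⟨b.map A.subtype, hcoeff b, ?_, aeval u (E.map A.subtype),
    aeval_mem_of_coeff_mem hmem huO _ (hcoeff E), ?_⟩
  · have h1 : aeval u (b.map A.subtype) - 1 = (u - 1) * aeval u (q.map A.subtype) := by
      have h2 := congrArg (fun r : Polynomial A => aeval u (r.map A.subtype)) hq
      simpa using h2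
    rw [h1, ValuationSubring.mem_nonunits_iff]
    have h3 : O.valuation (u - 1) < 1 := O.mem_nonunits_iff.mp hu
    have h4 : O.valuation (aeval u (q.map A.subtype)) ≤ 1 :=
      (O.valuation_le_one_iff _).mpr (aeval_mem_of_coeff_mem hmem huO _ (hcoeff q))
    rw [map_mul]
    exact mul_lt_one_of_lt_of_le h3 h4
  · have h2 := congrArg (fun r : Polynomial A => aeval u (r.map A.subtype)) hE
    simpa using h2

/-- **(L3a) Approximate roots** (leaf C3 of the skeleton, Core.lean v6, with the missing
`[CharZero K]`): the approximate root is a POLYNOMIAL in `u` with coefficients in `A`. -/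
theorem exists_approxRoot [CharZero K] (hmem : ∀ a : K, algebraMap K F a ∈ O ↔ a ∈ A)
    (m : ℕ) (hm0 : m ≠ 0) (hm : ((m : K))⁻¹ ∈ A) (u : F) (hu : u - 1 ∈ O.nonunits) (N : ℕ) :
    ∃ p : Polynomial K, (∀ i, p.coeff i ∈ A) ∧
      H74.IsApproxRoot O m u N (Polynomial.aeval u p) :=
  exists_approxRoot' hmem m (Nat.cast_ne_zero.mpr hm0) hm u hu N

end ValuationSubring

end Fermat.Agent.S18.H89
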